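import Fermat.Agent.PowerFreeSums.Series
import Fermat.Agent.SquarefreeShift.Main

/-!
# The pairs of numbers without a `k`-th power

The `n ≤ X` with `n` and `σ n + h` free of `k`-th powers number `𝔖 X + O (N ^ (2/(k+1) + ε))`, for
`N` a bound of `X` and of `|σ n + h|`: `μ d μ e` over `d ^ k ∣ n`, `e ^ k ∣ σ n + h`, cut at
`N ^ (1/(k+1))`, the divisor bound for the rest.
-/

set_option autoImplicit false

noncomputable section

namespace FA.PowerFreeSums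

open Finset Filter SquarefreeShift
open scoped Topology ArithmeticFunction.Moebius

open scoped Classical in
/-- The number of the pairs. -/
def pairCount (k : ℕ) (σ h : ℤ) (X : ℕ) : ℕ :=
  #((Ioc 0 X).filter fun n : ℕ => IsPowFree k n ∧ IsPowFree k (σ * (n : ℤ) + h).natAbs)

/-- The part of `∑_{d ^ k ∣ n} μ d` with `d ≤ z`. -/
def truncSum (k z n : ℕ) : ℝ := ∑ d ∈ Icc 1 z, if d ^ k ∣ n then (μ d : ℝ) else 0

theorem abs_indicator_sub_truncSum_le {k n z M : ℕ} (hk : 1 ≤ k) (hn : 0 < n) (hM : n ≤ M)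
    (hz : z ≤ M) [DecidablePred (IsPowFree k)] :
    |(if IsPowFree k n then (1 : ℝ) else 0) - truncSum k z n| ≤
      #((Ioc z M).filter fun d => d ^ k ∣ n) := by
  rw [← sum_moebius_pow_dvd hk hn hM, truncSum, show Icc 1 M = Ioc 0 M from rfl,
    show Icc 1 z = Ioc 0 z from rfl, ← sum_Ioc_consecutive _ (Nat.zero_le z) hz,
    add_sub_cancel_left, ← sum_filter]
  refine (abs_sum_le_sum_abs _ _).trans ((sum_le_card_nsmul _ _ 1 fun d _ => ?_).trans
    (le_of_eq (nsmul_one _)))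
  exact_mod_cast ArithmeticFunction.abs_moebius_le_one

theorem abs_truncSum_le {k n z : ℕ} (hk : 1 ≤ k) (hn : 0 < n) :
    |truncSum k z n| ≤ (#n.divisors : ℝ) := by
  rw [truncSum, ← sum_filter]
  refine (abs_sum_le_sum_abs _ _).trans ((sum_le_card_nsmul _ _ 1 fun d _ =>
    (by exact_mod_cast ArithmeticFunction.abs_moebius_le_one)).trans ?_)
  rw [nsmul_one]
  exact Nat.cast_le.2 (card_le_card fun d hd => Nat.mem_divisors.2
    ⟨(dvd_pow_self d (by omega)).trans (mem_filter.1 hd).2, hn.ne'⟩)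

theorem sum_inv_pow_tail_le {k z M : ℕ} (hk : 2 ≤ k) (hz : 0 < z) (hzM : z ≤ M) :
    ∑ d ∈ Ioc z M, ((d : ℝ) ^ k)⁻¹ ≤ ((z : ℝ) ^ (k - 1))⁻¹ := by
  have hz0 : (0 : ℝ) < z := Nat.cast_pos.2 hz
  refine (sum_le_sum (g := fun d : ℕ => ((z : ℝ) ^ (k - 2))⁻¹ * ((d : ℝ) ^ 2)⁻¹)
    fun d hd => ?_).trans ?_
  · rw [mem_Ioc] at hd
    have hd0 : (0 : ℝ) < d := Nat.cast_pos.2 (by omega)
    rw [← mul_inv]
    refine inv_anti₀ (by positivity) ?_
    conv_rhs => rw [show k = (k - 2) + 2 by omega, pow_add]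
    exact mul_le_mul_of_nonneg_right
      (pow_le_pow_left₀ hz0.le (Nat.cast_le.2 hd.1.le) _) (by positivity)
  · rw [← mul_sum, show k - 1 = (k - 2) + 1 by omega, pow_succ, mul_inv]
    refine mul_le_mul_of_nonneg_left ((sum_Ioc_inv_sq_le_sub (α := ℝ) hz.ne' hzM).trans
      (sub_le_self _ (by positivity))) (by positivity)

/-- The cost of the cut. -/
theorem abs_pairCount_sub_trunc_le {k : ℕ} (hk : 2 ≤ k) {σ h : ℤ} (hσ : σ * σ = 1)
    {X V z M : ℕ} {D : ℝ} (hz : 0 < z) (hzM : z ≤ M) (hXM : X ≤ M) (hVM : V ≤ M)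
    (hv : ∀ n ∈ Ioc 0 X, σ * (n : ℤ) + h ≠ 0 ∧ (σ * (n : ℤ) + h).natAbs ≤ V)
    (hD : ∀ m : ℕ, 0 < m → m ≤ V → (#m.divisors : ℝ) ≤ D) (hD0 : 0 ≤ D) :
    |(pairCount k σ h X : ℝ) - ∑ n ∈ Ioc 0 X,
        truncSum k z n * truncSum k z (σ * (n : ℤ) + h).natAbs| ≤
      (1 + D) * X * ((z : ℝ) ^ (k - 1))⁻¹ + (V : ℝ) ^ ((1 : ℝ) / k) := by
  classical
  have e : (pairCount k σ h X : ℝ) = ∑ n ∈ Ioc 0 X, (if IsPowFree k n then (1 : ℝ) else 0) *
      (if IsPowFree k (σ * (n : ℤ) + h).natAbs then (1 : ℝ) else 0) := by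
    rw [pairCount, card_filter, Nat.cast_sum]
    refine sum_congr rfl fun n _ => ?_
    by_cases h1 : IsPowFree k n <;>
      by_cases h2 : IsPowFree k (σ * (n : ℤ) + h).natAbs <;> simp [h1, h2]
  rw [e, ← sum_sub_distrib]
  obtain ⟨T, hT⟩ : ∃ T : ℕ → ℕ, T = fun n => #((Ioc z M).filter fun d => d ^ k ∣ n) := ⟨_, rfl⟩
  have hpt : ∀ n ∈ Ioc 0 X, |(if IsPowFree k n then (1 : ℝ) else 0) *
      (if IsPowFree k (σ * (n : ℤ) + h).natAbs then (1 : ℝ) else 0) -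
      truncSum k z n * truncSum k z (σ * (n : ℤ) + h).natAbs| ≤
      (T (σ * (n : ℤ) + h).natAbs : ℝ) + D * T n := by
    intro n hn
    obtain ⟨h0, hV⟩ := hv n hn
    rw [mem_Ioc] at hn
    have hm : 0 < (σ * (n : ℤ) + h).natAbs := Int.natAbs_pos.2 h0
    obtain ⟨m, rfl⟩ : ∃ m, m = (σ * (n : ℤ) + h).natAbs := ⟨_, rfl⟩
    obtain ⟨a, ha⟩ : ∃ a : ℝ, a = if IsPowFree k n then (1 : ℝ) else 0 := ⟨_, rfl⟩
    obtain ⟨b, hb⟩ : ∃ b : ℝ,
        b = if IsPowFree k (σ * (n : ℤ) + h).natAbs then (1 : ℝ) else 0 := ⟨_, rfl⟩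
    have h1 := abs_indicator_sub_truncSum_le (z := z) (M := M) (show 1 ≤ k by omega) hn.1
      (hn.2.trans hXM) hzM
    have h2 := abs_indicator_sub_truncSum_le (z := z) (M := M) (show 1 ≤ k by omega) hm
      (hV.trans hVM) hzM
    rw [← ha] at h1 ⊢
    rw [← hb] at h2 ⊢
    have h3 := (abs_truncSum_le (z := z) (show 1 ≤ k by omega) hm).trans (hD _ hm hV)
    have ha1 : |a| ≤ 1 := by rw [ha]; split_ifs <;> simp
    have es : ∀ p q s t : ℝ, p * q - s * t = p * (q - t) + (p - s) * t := fun p q s t => by ring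
    rw [hT, es]
    refine (abs_add_le _ _).trans (add_le_add ?_ ?_)
    · rw [abs_mul]
      exact (mul_le_of_le_one_left (abs_nonneg _) ha1).trans h2
    · rw [abs_mul, mul_comm D]
      exact mul_le_mul h1 h3 (abs_nonneg _) (Nat.cast_nonneg _)
  refine (abs_sum_le_sum_abs _ _).trans ((sum_le_sum hpt).trans ?_)
  rw [sum_add_distrib, ← mul_sum, hT]
  simp only [card_filter, Nat.cast_sum, Nat.cast_ite, Nat.cast_one, Nat.cast_zero]
  rw [sum_comm, sum_comm (s := Ioc 0 X)]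
  simp only [sum_boole]
  have h1 : ∑ d ∈ Ioc z M, (#((Ioc 0 X).filter fun n : ℕ => d ^ k ∣ n) : ℝ) ≤
      X * ((z : ℝ) ^ (k - 1))⁻¹ := by
    refine le_trans ?_ (mul_le_mul_of_nonneg_left (sum_inv_pow_tail_le hk hz hzM)
      (Nat.cast_nonneg X))
    rw [mul_sum]
    refine sum_le_sum fun d _ => ?_
    rw [Nat.Ioc_filter_dvd_card_eq_div, ← div_eq_mul_inv, ← Nat.cast_pow]
    exact Nat.cast_div_le
  have h2 : ∑ d ∈ Ioc z M,
      (#((Ioc 0 X).filter fun n : ℕ => d ^ k ∣ (σ * (n : ℤ) + h).natAbs) : ℝ) ≤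
      X * ((z : ℝ) ^ (k - 1))⁻¹ + (V : ℝ) ^ ((1 : ℝ) / k) := by
    refine (sum_le_sum (g := fun d : ℕ => (X : ℝ) * ((d : ℝ) ^ k)⁻¹ +
      if d ^ k ≤ V then 1 else 0) fun d hd => ?_).trans ?_
    · rw [mem_Ioc] at hd
      split_ifs with hdV
      · rw [← div_eq_mul_inv]
        exact classCount_comm_bound hσ (show 0 < d by omega)
      · rw [card_eq_zero.2 (filter_eq_empty_iff.2 fun n hn hdn => hdV
          ((Nat.le_of_dvd (Int.natAbs_pos.2 (hv n hn).1) hdn).trans (hv n hn).2))]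
        push_cast
        positivity
    · rw [sum_add_distrib, ← mul_sum, sum_boole]
      refine add_le_add (mul_le_mul_of_nonneg_left (sum_inv_pow_tail_le hk hz hzM)
        (Nat.cast_nonneg X)) ?_
      refine (Nat.cast_le.2 (card_le_card (t := Icc 1 ⌊(V : ℝ) ^ ((1 : ℝ) / k)⌋₊)
        fun d hd => ?_)).trans ?_
      · rw [mem_filter, mem_Ioc] at hd
        refine mem_Icc.2 ⟨by omega, Nat.le_floor ?_⟩
        rw [one_div]
        refine le_of_pow_le_pow_left₀ (show k ≠ 0 by omega) (by positivity) ?_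
        rw [Real.rpow_inv_natCast_pow (Nat.cast_nonneg V) (by omega)]
        exact_mod_cast hd.2
      · rw [Nat.card_Icc, Nat.add_sub_cancel]
        exact Nat.floor_le (by positivity)
  have := mul_le_mul_of_nonneg_left h1 hD0
  linarith

/-- The part with `d, e ≤ z`. -/
theorem abs_trunc_sub_box_le {k : ℕ} {σ h : ℤ} (hσ : σ * σ = 1) (X z : ℕ) :
    |∑ n ∈ Ioc 0 X, truncSum k z n * truncSum k z (σ * (n : ℤ) + h).natAbs -
      X * ∑ x ∈ Icc 1 z ×ˢ Icc 1 z,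
        pairWeight k h.natAbs x / ((x.1.lcm x.2 : ℕ) : ℝ) ^ k| ≤ (z : ℝ) ^ 2 := by
  have e : ∑ n ∈ Ioc 0 X, truncSum k z n * truncSum k z (σ * (n : ℤ) + h).natAbs =
      ∑ x ∈ Icc 1 z ×ˢ Icc 1 z, (μ x.1 : ℝ) * (μ x.2 : ℝ) * classCount k σ h X x.1 x.2 := by
    simp only [truncSum, sum_mul_sum, classCount]
    rw [sum_congr rfl fun n _ => (sum_product' _ _ _).symm, sum_comm]
    refine sum_congr rfl fun x _ => ?_
    rw [card_filter, Nat.cast_sum, mul_sum]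
    refine sum_congr rfl fun n _ => ?_
    by_cases h1 : x.1 ^ k ∣ n <;>
      by_cases h2 : x.2 ^ k ∣ (σ * (n : ℤ) + h).natAbs <;> simp [h1, h2]
  rw [e, mul_sum, ← sum_sub_distrib]
  refine (abs_sum_le_sum_abs _ _).trans ((sum_le_card_nsmul _ _ 1 fun x hx => ?_).trans ?_)
  · rw [mem_product, mem_Icc, mem_Icc] at hx
    have h1 := abs_classCount_sub_le (k := k) (h := h) (X := X) hσ
      (show 0 < x.1 by omega) (show 0 < x.2 by omega)
    rw [pairWeight]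
    refine le_trans (le_of_eq ?_) (mul_le_one₀
      (show |(μ x.1 : ℝ) * (μ x.2 : ℝ)| ≤ 1 by
        rw [abs_mul]
        exact mul_le_one₀ (by exact_mod_cast ArithmeticFunction.abs_moebius_le_one)
          (abs_nonneg _) (by exact_mod_cast ArithmeticFunction.abs_moebius_le_one))
      (abs_nonneg _) h1)
    rw [← abs_mul]
    congr 1
    split_ifs <;> ring
  · rw [card_product, Nat.card_Icc, Nat.add_sub_cancel, nsmul_one, sq, Nat.cast_mul]

/-- **The pairs of numbers without a `k`-th power.** -/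
theorem exists_abs_pairCount_sub_le {k : ℕ} (hk : 2 ≤ k) {ε : ℝ} (hε : 0 < ε) :
    ∃ C : ℝ, 0 < C ∧ ∀ (σ h : ℤ) (X V : ℕ), σ * σ = 1 →
      (∀ n ∈ Ioc 0 X, σ * (n : ℤ) + h ≠ 0 ∧ (σ * (n : ℤ) + h).natAbs ≤ V) →
        |(pairCount k σ h X : ℝ) - pairDensity k h.natAbs * X| ≤
          C * ((max X V : ℕ) : ℝ) ^ (2 / ((k : ℝ) + 1) + ε) := by
  classical
  obtain ⟨η, hη⟩ : ∃ η, η = min (ε / 2) (1 / 4) := ⟨_, rfl⟩
  have hη0 : 0 < η := hη ▸ lt_min (by linarith) (by norm_num)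
  have hηε : 2 * η ≤ ε := by have := min_le_left (ε / 2) (1 / 4 : ℝ); linarith
  have hη4 : η ≤ 1 / 4 := hη ▸ min_le_right _ _
  obtain ⟨C, hC1, hC⟩ := RepresentationBound.card_divisors_isBigO η hη0
  have hZ : 0 ≤ zetaSum η := tsum_nonneg fun q => by positivity
  obtain ⟨A, hA⟩ : ∃ A, A = 1 + C + 2 * C ^ 2 * zetaSum η := ⟨_, rfl⟩
  have hA0 : 0 ≤ A := hA ▸ by positivity
  refine ⟨2 ^ k * A + 2, by positivity, fun σ h X V hσ hv => ?_⟩
  rcases Nat.eq_zero_or_pos X with rfl | hX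
  · simp only [pairCount, Ioc_self, filter_empty, card_empty, Nat.cast_zero, mul_zero, sub_zero,
      abs_zero]
    positivity
  obtain ⟨N, hN⟩ : ∃ N, N = max X V := ⟨_, rfl⟩
  rw [← hN]
  have hXN : X ≤ N := hN ▸ le_max_left _ _
  have hVN : V ≤ N := hN ▸ le_max_right _ _
  have hN1 : (1 : ℝ) ≤ N := Nat.one_le_cast.2 (by omega)
  have hk2 : (2 : ℝ) ≤ k := Nat.ofNat_le_cast.2 hk
  obtain ⟨s, hs⟩ : ∃ s, s = (1 : ℝ) / (k + 1) := ⟨_, rfl⟩
  have hs0 : 0 ≤ s := hs ▸ by positivity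
  have hs1 : s ≤ 1 := by rw [hs, div_le_one (by linarith)]; linarith
  have hy : (1 : ℝ) ≤ (N : ℝ) ^ s := Real.one_le_rpow hN1 hs0
  obtain ⟨z, hz⟩ : ∃ z, z = ⌊(N : ℝ) ^ s⌋₊ := ⟨_, rfl⟩
  have hz1 : 1 ≤ z := hz ▸ Nat.le_floor (by exact_mod_cast hy)
  have hz1' : (1 : ℝ) ≤ z := Nat.one_le_cast.2 hz1
  have hzy : (z : ℝ) ≤ (N : ℝ) ^ s := hz ▸ Nat.floor_le (by positivity)
  have hzN : z ≤ N := Nat.cast_le.1 (hzy.trans ((Real.rpow_le_rpow_of_exponent_le hN1 hs1).trans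
    (le_of_eq (Real.rpow_one _))))
  have hzhalf : (N : ℝ) ^ s / 2 ≤ z := by
    have := Nat.lt_floor_add_one ((N : ℝ) ^ s)
    rw [← hz] at this
    linarith
  obtain ⟨b, hb⟩ : ∃ b, b = (k : ℝ) - 1 - 3 * η := ⟨_, rfl⟩
  have hb0 : 0 ≤ b := by linarith
  have h1 := abs_pairCount_sub_trunc_le hk hσ (z := z) (M := N) (D := C * (N : ℝ) ^ η) hz1 hzN
    hXN hVN hv (fun m hm hmV => (hC m hm.ne').trans (mul_le_mul_of_nonneg_left
      (Real.rpow_le_rpow (Nat.cast_nonneg m) (Nat.cast_le.2 (hmV.trans hVN)) hη0.le)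
      (by linarith))) (by positivity)
  have h2 := abs_trunc_sub_box_le (k := k) (h := h) hσ X z
  have h3 := mul_le_mul_of_nonneg_left
    (abs_box_sub_le hk h.natAbs hz1 hη0 (by linarith) hC) (Nat.cast_nonneg (α := ℝ) X)
  rw [← abs_of_nonneg (Nat.cast_nonneg (α := ℝ) X), ← abs_mul,
    abs_of_nonneg (Nat.cast_nonneg (α := ℝ) X), ← hb, mul_sub] at h3
  obtain ⟨W, hW⟩ : ∃ W, W = (X : ℝ) * (z : ℝ) ^ (-b) := ⟨_, rfl⟩
  have hW0 : 0 ≤ W := hW ▸ by positivity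
  have hW1 : (X : ℝ) * ((z : ℝ) ^ (k - 1))⁻¹ ≤ W := by
    rw [hW, ← Real.rpow_natCast, ← Real.rpow_neg (by positivity)]
    refine mul_le_mul_of_nonneg_left
      (Real.rpow_le_rpow_of_exponent_le hz1' ?_) (Nat.cast_nonneg _)
    rw [Nat.cast_sub (by omega), hb]
    push_cast
    linarith
  obtain ⟨e, he⟩ : ∃ e, e = 2 / ((k : ℝ) + 1) + ε := ⟨_, rfl⟩
  rw [← he]
  have hW2 : W * (N : ℝ) ^ η ≤ 2 ^ k * (N : ℝ) ^ e := by
    have h4 : (z : ℝ) ^ (-b) ≤ 2 ^ k * (N : ℝ) ^ (-(s * b)) := by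
      refine (Real.rpow_le_rpow_of_nonpos (by linarith) hzhalf (by linarith)).trans ?_
      rw [Real.div_rpow (by linarith) two_pos.le, ← Real.rpow_mul (by linarith), mul_neg,
        Real.rpow_neg two_pos.le, div_inv_eq_mul, mul_comm]
      refine mul_le_mul_of_nonneg_right ?_ (by positivity)
      rw [← Real.rpow_natCast 2 k]
      exact Real.rpow_le_rpow_of_exponent_le one_le_two (by linarith)
    rw [hW]
    refine (mul_le_mul_of_nonneg_right (mul_le_mul (Nat.cast_le.2 hXN) h4 (by positivity)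
      (by positivity)) (by positivity)).trans ?_
    rw [mul_left_comm, mul_assoc]
    refine mul_le_mul_of_nonneg_left ?_ (by positivity)
    nth_rewrite 1 [← Real.rpow_one (N : ℝ)]
    rw [← Real.rpow_add (by linarith), ← Real.rpow_add (by linarith)]
    refine Real.rpow_le_rpow_of_exponent_le hN1 ?_
    have h5 : 3 * η * s ≤ η := by
      have : s ≤ 1 / 3 := hs ▸ one_div_le_one_div_of_le (by norm_num) (by linarith)
      nlinarith
    have h6 : 1 - s * b = 2 / ((k : ℝ) + 1) + 3 * η * s := by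
      rw [hs, hb]
      field_simp
      ring
    linarith
  have hWη : W ≤ W * (N : ℝ) ^ η := le_mul_of_one_le_right hW0 (Real.one_le_rpow hN1 hη0.le)
  have hVk : (V : ℝ) ^ ((1 : ℝ) / k) ≤ (N : ℝ) ^ e := by
    refine (Real.rpow_le_rpow (Nat.cast_nonneg V) (Nat.cast_le.2 hVN) (by positivity)).trans
      (Real.rpow_le_rpow_of_exponent_le hN1 ?_)
    have : (1 : ℝ) / k ≤ 2 / ((k : ℝ) + 1) := by
      rw [div_le_div_iff₀ (by linarith) (by linarith)]
      linarith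
    linarith
  have hz2 : (z : ℝ) ^ 2 ≤ (N : ℝ) ^ e := by
    refine (pow_le_pow_left₀ (by linarith) hzy 2).trans ?_
    rw [← Real.rpow_natCast _ 2, ← Real.rpow_mul (by linarith)]
    refine Real.rpow_le_rpow_of_exponent_le hN1 ?_
    rw [hs, he]
    push_cast
    linarith [show (1 : ℝ) / ((k : ℝ) + 1) * 2 = 2 / ((k : ℝ) + 1) by ring]
  have e1 : (1 + C * (N : ℝ) ^ η) * X * ((z : ℝ) ^ (k - 1))⁻¹ ≤ (1 + C) * (W * (N : ℝ) ^ η) := by
    rw [mul_assoc, add_mul, add_mul, one_mul, one_mul]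
    refine add_le_add (hW1.trans hWη) ?_
    rw [mul_assoc, mul_comm W]
    exact mul_le_mul_of_nonneg_left (mul_le_mul_of_nonneg_left hW1 (by positivity)) (by linarith)
  have e2 : (X : ℝ) * (2 * C ^ 2 * zetaSum η * (z : ℝ) ^ (-b)) ≤
      2 * C ^ 2 * zetaSum η * (W * (N : ℝ) ^ η) := by
    rw [mul_left_comm, ← hW]
    exact mul_le_mul_of_nonneg_left hWη (by positivity)
  have e3 := mul_le_mul_of_nonneg_left hW2 hA0
  have := abs_le.1 h1
  have := abs_le.1 h2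
  have := abs_le.1 h3
  have e4 : A * (W * (N : ℝ) ^ η) = (1 + C) * (W * (N : ℝ) ^ η) +
      2 * C ^ 2 * zetaSum η * (W * (N : ℝ) ^ η) := by rw [hA]; ring
  rw [abs_le]
  constructor <;> linarith

open scoped Classical in
/-- The ordered pairs of sum `N`. -/
def sumCount (k N : ℕ) : ℕ :=
  #((Ioo 0 N).filter fun m : ℕ => IsPowFree k m ∧ IsPowFree k (N - m))

open scoped Classical in
/-- The pairs of difference `h`. -/
def gapCount (k h X : ℕ) : ℕ :=
  #((Ioc 0 X).filter fun n : ℕ => IsPowFree k n ∧ IsPowFree k (n + h))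

/-- **Evelyn and Linfoot.** -/
theorem exists_abs_sumCount_sub_le {k : ℕ} (hk : 2 ≤ k) {ε : ℝ} (hε : 0 < ε) :
    ∃ C : ℝ, 0 < C ∧ ∀ N : ℕ, 0 < N →
      |(sumCount k N : ℝ) - pairDensity k N * N| ≤ C * (N : ℝ) ^ (2 / ((k : ℝ) + 1) + ε) := by
  classical
  obtain ⟨C, hC, hb⟩ := exists_abs_pairCount_sub_le hk hε
  refine ⟨C + 1, by linarith, fun N hN => ?_⟩
  have h := hb (-1) N (N - 1) N (by norm_num) fun n hn => by rw [mem_Ioc] at hn; omega
  have e : pairCount k (-1) N (N - 1) = sumCount k N := by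
    rw [pairCount, sumCount, show Ioo 0 N = Ioc 0 (N - 1) by ext n; simp; omega]
    refine congrArg card (filter_congr fun n hn => ?_)
    rw [mem_Ioc] at hn
    rw [show (-1 * (n : ℤ) + (N : ℤ)).natAbs = N - n by omega]
  rw [e, Int.natAbs_natCast, max_eq_right (Nat.sub_le N 1),
    Nat.cast_sub (show 1 ≤ N from hN)] at h
  obtain ⟨h0, h1⟩ := pairDensity_mem hk N
  have hpow : (1 : ℝ) ≤ (N : ℝ) ^ (2 / ((k : ℝ) + 1) + ε) :=
    Real.one_le_rpow (Nat.one_le_cast.2 hN) (by positivity)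
  have h2 := abs_le.1 h
  rw [abs_le]
  constructor <;> push_cast at h2 <;> nlinarith

/-- **Mirsky.** -/
theorem exists_abs_gapCount_sub_le {k : ℕ} (hk : 2 ≤ k) {ε : ℝ} (hε : 0 < ε) :
    ∃ C : ℝ, 0 < C ∧ ∀ h X : ℕ, |(gapCount k h X : ℝ) - pairDensity k h * X| ≤
      C * ((X : ℝ) + h) ^ (2 / ((k : ℝ) + 1) + ε) := by
  classical
  obtain ⟨C, hC, hb⟩ := exists_abs_pairCount_sub_le hk hε
  refine ⟨C, hC, fun h X => ?_⟩
  have h1 := hb 1 h X (X + h) (by norm_num) fun n hn => by rw [mem_Ioc] at hn; omega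
  have e : pairCount k 1 h X = gapCount k h X := by
    rw [pairCount, gapCount]
    refine congrArg card (filter_congr fun n _ => ?_)
    rw [show (1 * (n : ℤ) + (h : ℤ)).natAbs = n + h by omega]
  rw [e, Int.natAbs_natCast, max_eq_right (Nat.le_add_right X h), Nat.cast_add] at h1
  exact h1

end FA.PowerFreeSums
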