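import Mathlib.Analysis.PSeries
import Mathlib.Data.Int.CardIntervalMod
import Mathlib.Algebra.Order.Archimedean.Real.Basic
import Mathlib.NumberTheory.Divisors
import Mathlib.Tactic

/-!
# Counting in the classes of `d ^ k ∣ n`, `e ^ k ∣ σ n + h`

The `n ≤ X` with `d ^ k ∣ n` and `e ^ k ∣ σ n + h`, for `σ = ± 1`, number
`X / [d, e] ^ k + O (1)` if `(d, e) ^ k ∣ h` and none otherwise. The sum of `1 / p ^ 2` over the
primes is less than `1/2`.
-/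

set_option autoImplicit false

noncomputable section

namespace FA.PowerFreeSums

open Finset

/-- The number of `n ≤ X` in the two classes. -/
def classCount (k : ℕ) (σ h : ℤ) (X d e : ℕ) : ℕ :=
  #((Ioc 0 X).filter fun n : ℕ => d ^ k ∣ n ∧ e ^ k ∣ (σ * (n : ℤ) + h).natAbs)

theorem abs_max_floor_sub_le {X r L : ℚ} (hX : 0 ≤ X) (hL : 0 < L) :
    |((max (⌊(X - r) / L⌋ - ⌊(0 - r) / L⌋) 0 : ℤ) : ℚ) - X / L| ≤ 1 := by
  have h0 : ⌊(0 - r) / L⌋ ≤ ⌊(X - r) / L⌋ :=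
    Int.floor_le_floor (div_le_div_of_nonneg_right (by linarith) hL.le)
  rw [max_eq_left (sub_nonneg.2 h0), Int.cast_sub]
  have e : (X - r) / L = (0 - r) / L + X / L := by ring
  have := Int.floor_le ((X - r) / L)
  have := Int.lt_floor_add_one ((X - r) / L)
  have := Int.floor_le ((0 - r) / L)
  have := Int.lt_floor_add_one ((0 - r) / L)
  rw [abs_le]
  constructor <;> linarith

theorem lcm_pow_eq (d e k : ℕ) : (d ^ k).lcm (e ^ k) = (d.lcm e) ^ k := by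
  rcases Nat.eq_zero_or_pos (d.gcd e) with hg | hg
  · rw [Nat.gcd_eq_zero_iff] at hg
    rw [hg.1, hg.2]
    rcases Nat.eq_zero_or_pos k with rfl | hk
    · simp
    · simp [zero_pow hk.ne']
  refine Nat.eq_of_mul_eq_mul_left (pow_pos hg k) ?_
  have h := Nat.gcd_mul_lcm (d ^ k) (e ^ k)
  rw [Nat.pow_gcd_pow] at h
  rw [h, ← mul_pow, ← mul_pow, Nat.gcd_mul_lcm]

/-- The count in the two classes. -/
theorem abs_classCount_sub_le {k : ℕ} {σ h : ℤ} {X d e : ℕ} (hσ : σ * σ = 1)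
    (hd : 0 < d) (he : 0 < e) :
    |(classCount k σ h X d e : ℝ) -
      if (d.gcd e) ^ k ∣ h.natAbs then (X : ℝ) / ((d.lcm e : ℕ) : ℝ) ^ k else 0| ≤ 1 := by
  by_cases hg : (d.gcd e) ^ k ∣ h.natAbs
  swap
  · rw [if_neg hg]
    have h0 : classCount k σ h X d e = 0 := by
      rw [classCount, card_eq_zero, filter_eq_empty_iff]
      rintro n - ⟨h1, h2⟩
      refine hg (Int.natCast_dvd.1 ?_)
      have h3 : (((d.gcd e) ^ k : ℕ) : ℤ) ∣ (n : ℤ) :=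
        Int.natCast_dvd_natCast.2 ((pow_dvd_pow_of_dvd (Nat.gcd_dvd_left d e) k).trans h1)
      have h4 : (((d.gcd e) ^ k : ℕ) : ℤ) ∣ σ * (n : ℤ) + h :=
        Int.natCast_dvd.2 ((pow_dvd_pow_of_dvd (Nat.gcd_dvd_right d e) k).trans h2)
      exact (dvd_add_right (h3.mul_left σ)).1 h4
    simp [h0]
  rw [if_pos hg, ← Nat.cast_pow, ← lcm_pow_eq]
  obtain ⟨D, hD⟩ : ∃ D, D = d ^ k := ⟨_, rfl⟩
  obtain ⟨E, hE⟩ : ∃ E, E = e ^ k := ⟨_, rfl⟩
  obtain ⟨L, hL⟩ : ∃ L, L = D.lcm E := ⟨_, rfl⟩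
  have hDL : (D : ℤ) ∣ L := Int.natCast_dvd_natCast.2 (hL ▸ Nat.dvd_lcm_left D E)
  have hEL : (E : ℤ) ∣ L := Int.natCast_dvd_natCast.2 (hL ▸ Nat.dvd_lcm_right D E)
  have hL0 : 0 < L := hL ▸ Nat.pos_of_ne_zero (Nat.lcm_ne_zero
    (hD ▸ (pow_pos hd k).ne') (hE ▸ (pow_pos he k).ne'))
  rw [← Nat.pow_gcd_pow, ← hD, ← hE] at hg
  obtain ⟨t, ht⟩ := Int.natCast_dvd.2 hg
  obtain ⟨w, hw⟩ : ∃ w, w = -σ * t * Nat.gcdA D E * D := ⟨_, rfl⟩
  obtain ⟨r, hr⟩ : ∃ r, r = (w % (L : ℤ)).toNat := ⟨_, rfl⟩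
  have hrw : (L : ℤ) ∣ (r : ℤ) - w := by
    rw [hr, Int.toNat_of_nonneg (Int.emod_nonneg _ (by omega))]
    exact dvd_sub_comm.1 (Int.dvd_self_sub_emod)
  have hr1 : (D : ℤ) ∣ r := by
    have h1 : (D : ℤ) ∣ w := hw ▸ dvd_mul_left _ _
    simpa using dvd_add (hDL.trans hrw) h1
  have hr2 : (E : ℤ) ∣ σ * r + h := by
    have h1 : (E : ℤ) ∣ σ * w + h := by
      refine ⟨t * Nat.gcdB D E, ?_⟩
      rw [ht, hw, Nat.gcd_eq_gcd_ab]
      linear_combination (-(t * Nat.gcdA D E * (D : ℤ))) * hσ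
    have h2 := dvd_add ((hEL.trans hrw).mul_left σ) h1
    rwa [show σ * ((r : ℤ) - w) + (σ * w + h) = σ * r + h by ring] at h2
  have hiff : ∀ n : ℕ, (D ∣ n ∧ E ∣ (σ * (n : ℤ) + h).natAbs) ↔ n ≡ r [MOD L] := by
    intro n
    rw [Nat.modEq_iff_dvd, ← Int.natCast_dvd_natCast, ← Int.natCast_dvd]
    constructor
    · rintro ⟨h1, h2⟩
      refine Int.natCast_dvd.2 (hL ▸ Nat.lcm_dvd (Int.natCast_dvd.1 (dvd_sub hr1 h1))
        (Int.natCast_dvd.1 ?_))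
      have h3 : (E : ℤ) ∣ σ * (σ * r + h - (σ * n + h)) := (dvd_sub hr2 h2).mul_left σ
      rwa [show σ * (σ * r + h - (σ * n + h)) = σ * σ * ((r : ℤ) - n) by ring, hσ, one_mul] at h3
    · intro h1
      refine ⟨?_, ?_⟩
      · simpa using dvd_sub hr1 (hDL.trans h1)
      · have h2 := dvd_sub hr2 ((hEL.trans h1).mul_left σ)
        rwa [show σ * (r : ℤ) + h - σ * ((r : ℤ) - n) = σ * n + h by ring] at h2
  have hC : ((classCount k σ h X d e : ℤ) : ℚ) =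
      ((max (⌊((X : ℚ) - r) / L⌋ - ⌊((0 : ℚ) - r) / L⌋) 0 : ℤ) : ℚ) := by
    rw [classCount, ← hD, ← hE, filter_congr fun n _ => hiff n,
      Nat.Ioc_filter_modEq_card 0 X hL0 r, Nat.cast_zero]
  have hb := abs_max_floor_sub_le (r := (r : ℚ)) (Nat.cast_nonneg X)
    (Nat.cast_pos.2 hL0 : (0 : ℚ) < L)
  rw [← hC, Int.cast_natCast] at hb
  rw [← hD, ← hE, ← hL]
  have hb2 := (Rat.cast_le (K := ℝ)).2 hb
  push_cast [Rat.cast_abs] at hb2
  exact hb2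

theorem classCount_comm_bound {k : ℕ} {σ h : ℤ} {X e : ℕ} (hσ : σ * σ = 1) (he : 0 < e) :
    (#((Ioc 0 X).filter fun n : ℕ => e ^ k ∣ (σ * (n : ℤ) + h).natAbs) : ℝ) ≤
      (X : ℝ) / (e : ℝ) ^ k + 1 := by
  have h1 := abs_le.1 (abs_classCount_sub_le (k := k) (h := h) (X := X) hσ one_pos he)
  rw [classCount, Nat.gcd_one_left, one_pow, if_pos (one_dvd _), Nat.lcm_one_left] at h1
  simp only [one_dvd, true_and] at h1
  linarith [h1.2]

theorem sum_inv_odd_sq_le (K : ℕ) :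
    ∑ i ∈ Icc 1 (K + 1), ((2 * (i : ℝ) + 1) ^ 2)⁻¹ ≤ 17 / 72 - (4 * ((K : ℝ) + 2))⁻¹ := by
  induction K with
  | zero => norm_num
  | succ K ih =>
    rw [sum_Icc_succ_top (by omega)]
    push_cast
    have h2 : ((2 * ((K : ℝ) + 1 + 1) + 1) ^ 2)⁻¹ ≤
        (4 * ((K : ℝ) + 2))⁻¹ - (4 * ((K : ℝ) + 1 + 2))⁻¹ := by
      rw [inv_sub_inv (by positivity) (by positivity),
        show 4 * ((K : ℝ) + 1 + 2) - 4 * (K + 2) = 4 by ring, inv_eq_one_div,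
        div_le_div_iff₀ (by positivity) (by positivity)]
      nlinarith
    linarith

/-- `∑ 1 / p ^ 2 ≤ 35/72 < 1/2`. -/
theorem sum_inv_prime_sq_le (s : Finset ℕ) (hs : ∀ p ∈ s, p.Prime) :
    ∑ p ∈ s, ((p : ℝ) ^ 2)⁻¹ ≤ 35 / 72 := by
  classical
  rw [← sum_filter_add_sum_filter_not s (fun p => p = 2)]
  have h1 : ∑ p ∈ s.filter (fun p => p = 2), ((p : ℝ) ^ 2)⁻¹ ≤ 1 / 4 := by
    refine (sum_le_sum_of_subset_of_nonneg (t := {2}) (fun p hp => ?_)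
      fun p _ _ => by positivity).trans (le_of_eq (by norm_num))
    exact mem_singleton.2 (mem_filter.1 hp).2
  obtain ⟨K, hK⟩ : ∃ K, K = s.sup id := ⟨_, rfl⟩
  have h2 : ∑ p ∈ s.filter (fun p => ¬ p = 2), ((p : ℝ) ^ 2)⁻¹ ≤
      ∑ i ∈ Icc 1 (K + 1), ((2 * (i : ℝ) + 1) ^ 2)⁻¹ := by
    have hodd : ∀ p ∈ s.filter (fun p => ¬ p = 2), 2 * (p / 2) + 1 = p ∧ 3 ≤ p ∧ p ≤ K := by
      intro p hp
      rw [mem_filter] at hp
      have hp2 := (hs p hp.1).two_le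
      have := (hs p hp.1).eq_two_or_odd.resolve_left hp.2
      exact ⟨by omega, by omega, hK ▸ le_sup (f := id) hp.1⟩
    refine le_trans (le_of_eq ?_) (sum_le_sum_of_subset_of_nonneg
      (s := (s.filter (fun p => ¬ p = 2)).image (fun p => p / 2)) (fun i hi => ?_)
      fun i _ _ => by positivity)
    · rw [sum_image fun p hp q hq e => ?_]
      · refine sum_congr rfl fun p hp => ?_
        conv_lhs => rw [← (hodd p hp).1]
        push_cast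
        rfl
      · have := (hodd p hp).1
        have := (hodd q hq).1
        omega
    · obtain ⟨p, hp, rfl⟩ := mem_image.1 hi
      have := hodd p hp
      exact mem_Icc.2 ⟨by omega, by omega⟩
  have := sum_inv_odd_sq_le K
  have : (0 : ℝ) ≤ (4 * ((K : ℝ) + 2))⁻¹ := by positivity
  linarith

theorem one_sub_sum_le_prod_aux {ι : Type} (s : Finset ι) (f : ι → ℝ)
    (hf : ∀ i ∈ s, 0 ≤ f i ∧ f i ≤ 1) : 1 - ∑ i ∈ s, f i ≤ ∏ i ∈ s, (1 - f i) := by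
  classical
  induction s using Finset.induction with
  | empty => simp
  | @insert a s ha ih =>
    rw [sum_insert ha, prod_insert ha]
    have h1 := hf a (mem_insert_self a s)
    have h2 := ih fun i hi => hf i (mem_insert_of_mem hi)
    have h3 := mul_le_mul_of_nonneg_left h2 (show 0 ≤ 1 - f a by linarith)
    have h4 : 0 ≤ f a * ∑ i ∈ s, f i :=
      mul_nonneg h1.1 (sum_nonneg fun i hi => (hf i (mem_insert_of_mem hi)).1)
    nlinarith

end FA.PowerFreeSums
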