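import Fermat.Agent.PowerFreeSums.Local
import Fermat.Agent.Forms3.RepresentationBound
import Mathlib.Analysis.PSeries
import Mathlib.NumberTheory.ArithmeticFunction.Moebius
import Mathlib.NumberTheory.EulerProduct.Basic

/-!
# The singular series of two numbers without a `k`-th power

`∑_q q ^ (- k) ∑_{[d, e] = q} μ d μ e [(d, e) ^ k ∣ m]` is the product over the primes of
`1 - 1 / p ^ k` for `p ^ k ∣ m` and `1 - 2 / p ^ k` otherwise, at least `1/36`; its part with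
`d, e ≤ z` differs by `O (z ^ (- (k - 1) + 3 η))`.
-/

set_option autoImplicit false

noncomputable section

namespace FA.PowerFreeSums

open Finset Filter
open scoped Topology ArithmeticFunction.Moebius

/-- The pairs of least common multiple `q`. -/
def lcmPairs (q : ℕ) : Finset (ℕ × ℕ) :=
  (q.divisors ×ˢ q.divisors).filter fun x => x.1.lcm x.2 = q

theorem mem_lcmPairs {q : ℕ} {x : ℕ × ℕ} (hq : q ≠ 0) : x ∈ lcmPairs q ↔ x.1.lcm x.2 = q := by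
  simp only [lcmPairs, mem_filter, mem_product, Nat.mem_divisors]
  exact ⟨fun h => h.2, fun h =>
    ⟨⟨⟨h ▸ Nat.dvd_lcm_left _ _, hq⟩, ⟨h ▸ Nat.dvd_lcm_right _ _, hq⟩⟩, h⟩⟩

/-- `μ d μ e` where `(d, e) ^ k ∣ m`. -/
def pairWeight (k m : ℕ) (x : ℕ × ℕ) : ℝ :=
  if (x.1.gcd x.2) ^ k ∣ m then (μ x.1 : ℝ) * (μ x.2 : ℝ) else 0

theorem abs_pairWeight_le (k m : ℕ) (x : ℕ × ℕ) : |pairWeight k m x| ≤ 1 := by
  rw [pairWeight]
  split_ifs
  · rw [abs_mul]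
    exact mul_le_one₀ (by exact_mod_cast ArithmeticFunction.abs_moebius_le_one) (abs_nonneg _)
      (by exact_mod_cast ArithmeticFunction.abs_moebius_le_one)
  · simp

/-- The coefficient of `q ^ (- k)`. -/
def pairCoeff (k m q : ℕ) : ℝ := ∑ x ∈ lcmPairs q, pairWeight k m x

theorem abs_pairCoeff_le (k m q : ℕ) {s : Finset (ℕ × ℕ)} (hs : s ⊆ lcmPairs q) :
    |∑ x ∈ s, pairWeight k m x| ≤ (#q.divisors : ℝ) ^ 2 := by
  refine (abs_sum_le_sum_abs _ _).trans ((sum_le_card_nsmul _ _ 1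
    fun x _ => abs_pairWeight_le k m x).trans ?_)
  rw [nsmul_one, sq]
  exact_mod_cast (card_le_card (hs.trans (filter_subset _ _))).trans
    (le_of_eq (card_product _ _))

theorem gcd_split {a b d₁ d₂ e₁ e₂ : ℕ} (hab : a.Coprime b) (hd₁ : d₁ ∣ a) (he₁ : e₁ ∣ a)
    (hd₂ : d₂ ∣ b) (he₂ : e₂ ∣ b) :
    (d₁ * d₂).gcd (e₁ * e₂) = d₁.gcd e₁ * d₂.gcd e₂ := by
  have h : ∀ {u v : ℕ}, u ∣ a → v ∣ b → u.Coprime v := fun hu hv =>
    Nat.Coprime.of_dvd hu hv hab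
  rw [Nat.Coprime.gcd_mul _ (h he₁ he₂), Nat.Coprime.gcd_mul_right_cancel _ (h he₁ hd₂).symm,
    mul_comm d₁, Nat.Coprime.gcd_mul_right_cancel _ (h hd₁ he₂)]

theorem lcm_split {a b d₁ d₂ e₁ e₂ : ℕ} (hab : a.Coprime b) (hd₁ : d₁ ∣ a) (he₁ : e₁ ∣ a)
    (hd₂ : d₂ ∣ b) (he₂ : e₂ ∣ b) :
    (d₁ * d₂).lcm (e₁ * e₂) = d₁.lcm e₁ * d₂.lcm e₂ := by
  refine Nat.dvd_antisymm (Nat.lcm_dvd (mul_dvd_mul (Nat.dvd_lcm_left _ _) (Nat.dvd_lcm_left _ _))
    (mul_dvd_mul (Nat.dvd_lcm_right _ _) (Nat.dvd_lcm_right _ _))) ?_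
  refine Nat.Coprime.mul_dvd_of_dvd_of_dvd
    (Nat.Coprime.of_dvd (Nat.lcm_dvd hd₁ he₁) (Nat.lcm_dvd hd₂ he₂) hab) ?_ ?_
  · exact Nat.lcm_dvd ((Nat.dvd_mul_right _ _).trans (Nat.dvd_lcm_left _ _))
      ((Nat.dvd_mul_right _ _).trans (Nat.dvd_lcm_right _ _))
  · exact Nat.lcm_dvd ((Nat.dvd_mul_left _ _).trans (Nat.dvd_lcm_left _ _))
      ((Nat.dvd_mul_left _ _).trans (Nat.dvd_lcm_right _ _))

theorem pairCoeff_mul (k m : ℕ) {a b : ℕ} (hab : a.Coprime b) (ha : a ≠ 0) (hb : b ≠ 0) :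
    pairCoeff k m (a * b) = pairCoeff k m a * pairCoeff k m b := by
  rw [pairCoeff, pairCoeff, pairCoeff, sum_mul_sum, ← sum_product']
  symm
  refine sum_nbij' (fun u : (ℕ × ℕ) × (ℕ × ℕ) => (u.1.1 * u.2.1, u.1.2 * u.2.2))
    (fun x => ((x.1.gcd a, x.2.gcd a), (x.1.gcd b, x.2.gcd b))) ?_ ?_ ?_ ?_ ?_
  · intro u hu
    simp only [mem_product, mem_lcmPairs ha, mem_lcmPairs hb] at hu
    rw [mem_lcmPairs (mul_ne_zero ha hb), lcm_split hab (hu.1 ▸ Nat.dvd_lcm_left _ _)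
      (hu.1 ▸ Nat.dvd_lcm_right _ _) (hu.2 ▸ Nat.dvd_lcm_left _ _)
      (hu.2 ▸ Nat.dvd_lcm_right _ _), hu.1, hu.2]
  · intro x hx
    rw [mem_lcmPairs (mul_ne_zero ha hb)] at hx
    have key : ∀ d : ℕ, d ∣ a * b → d.gcd a * d.gcd b = d := fun d hd => by
      rw [← hab.gcd_mul d, Nat.gcd_eq_left hd]
    have h1 : (x.1.gcd a).lcm (x.2.gcd a) ∣ a :=
      Nat.lcm_dvd (Nat.gcd_dvd_right _ _) (Nat.gcd_dvd_right _ _)
    have h2 : (x.1.gcd b).lcm (x.2.gcd b) ∣ b :=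
      Nat.lcm_dvd (Nat.gcd_dvd_right _ _) (Nat.gcd_dvd_right _ _)
    have h3 : (x.1.gcd a).lcm (x.2.gcd a) * (x.1.gcd b).lcm (x.2.gcd b) = a * b := by
      rw [← lcm_split hab (Nat.gcd_dvd_right _ _) (Nat.gcd_dvd_right _ _) (Nat.gcd_dvd_right _ _)
        (Nat.gcd_dvd_right _ _), key _ (hx ▸ Nat.dvd_lcm_left _ _),
        key _ (hx ▸ Nat.dvd_lcm_right _ _), hx]
    simp only [mem_product, mem_lcmPairs ha, mem_lcmPairs hb]
    exact ⟨Nat.dvd_antisymm h1 ((Nat.Coprime.of_dvd dvd_rfl h2 hab).dvd_of_dvd_mul_right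
        (h3 ▸ dvd_mul_right a b)),
      Nat.dvd_antisymm h2 ((Nat.Coprime.of_dvd dvd_rfl h1 hab.symm).dvd_of_dvd_mul_left
        (h3 ▸ dvd_mul_left b a))⟩
  · intro u hu
    rw [mem_product, mem_lcmPairs ha, mem_lcmPairs hb] at hu
    obtain ⟨⟨d₁, e₁⟩, d₂, e₂⟩ := u
    simp only at hu
    have hd₁ : d₁ ∣ a := hu.1 ▸ Nat.dvd_lcm_left _ _
    have he₁ : e₁ ∣ a := hu.1 ▸ Nat.dvd_lcm_right _ _
    have hd₂ : d₂ ∣ b := hu.2 ▸ Nat.dvd_lcm_left _ _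
    have he₂ : e₂ ∣ b := hu.2 ▸ Nat.dvd_lcm_right _ _
    simp only [Prod.mk.injEq]
    refine ⟨⟨?_, ?_⟩, ?_, ?_⟩
    · rw [Nat.Coprime.gcd_mul_right_cancel _ (Nat.Coprime.of_dvd hd₂ dvd_rfl hab.symm),
        Nat.gcd_eq_left hd₁]
    · rw [Nat.Coprime.gcd_mul_right_cancel _ (Nat.Coprime.of_dvd he₂ dvd_rfl hab.symm),
        Nat.gcd_eq_left he₁]
    · rw [Nat.Coprime.gcd_mul_left_cancel _ (Nat.Coprime.of_dvd hd₁ dvd_rfl hab),
        Nat.gcd_eq_left hd₂]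
    · rw [Nat.Coprime.gcd_mul_left_cancel _ (Nat.Coprime.of_dvd he₁ dvd_rfl hab),
        Nat.gcd_eq_left he₂]
  · intro x hx
    rw [mem_lcmPairs (mul_ne_zero ha hb)] at hx
    simp only
    rw [← hab.gcd_mul, ← hab.gcd_mul, Nat.gcd_eq_left (hx ▸ Nat.dvd_lcm_left _ _),
      Nat.gcd_eq_left (hx ▸ Nat.dvd_lcm_right _ _)]
  · rintro ⟨⟨d₁, e₁⟩, d₂, e₂⟩ hu
    simp only [mem_product, mem_lcmPairs ha, mem_lcmPairs hb] at hu
    have hd₁ : d₁ ∣ a := hu.1 ▸ Nat.dvd_lcm_left _ _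
    have he₁ : e₁ ∣ a := hu.1 ▸ Nat.dvd_lcm_right _ _
    have hd₂ : d₂ ∣ b := hu.2 ▸ Nat.dvd_lcm_left _ _
    have he₂ : e₂ ∣ b := hu.2 ▸ Nat.dvd_lcm_right _ _
    simp only [pairWeight]
    rw [gcd_split hab hd₁ he₁ hd₂ he₂, mul_pow,
      ArithmeticFunction.isMultiplicative_moebius.map_mul_of_coprime
        (Nat.Coprime.of_dvd hd₁ hd₂ hab),
      ArithmeticFunction.isMultiplicative_moebius.map_mul_of_coprime
        (Nat.Coprime.of_dvd he₁ he₂ hab)]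
    have hc : ((d₁.gcd e₁) ^ k).Coprime ((d₂.gcd e₂) ^ k) :=
      (Nat.Coprime.of_dvd ((Nat.gcd_dvd_left _ _).trans hd₁) ((Nat.gcd_dvd_left _ _).trans hd₂)
        hab).pow k k
    by_cases h1 : (d₁.gcd e₁) ^ k ∣ m <;> by_cases h2 : (d₂.gcd e₂) ^ k ∣ m
    · rw [if_pos h1, if_pos h2, if_pos (hc.mul_dvd_of_dvd_of_dvd h1 h2)]
      push_cast
      ring
    · rw [if_neg h2, if_neg fun h => h2 ((dvd_mul_left _ _).trans h), mul_zero]
    · rw [if_neg h1, if_neg fun h => h1 ((dvd_mul_right _ _).trans h), zero_mul]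
    · rw [if_neg h1, if_neg fun h => h1 ((dvd_mul_right _ _).trans h), zero_mul]

/-- The term of the series. -/
def pairTerm (k m : ℕ) : ArithmeticFunction ℝ :=
  ⟨fun q => pairCoeff k m q / (q : ℝ) ^ k, by simp [pairCoeff, lcmPairs]⟩

theorem pairTerm_apply (k m q : ℕ) : pairTerm k m q = pairCoeff k m q / (q : ℝ) ^ k := rfl

theorem pairCoeff_one (k m : ℕ) : pairCoeff k m 1 = 1 := by
  have h : lcmPairs 1 = {(1, 1)} := by decide
  rw [pairCoeff, h, sum_singleton, pairWeight]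
  simp

theorem pairTerm_isMultiplicative (k m : ℕ) : (pairTerm k m).IsMultiplicative := by
  refine ⟨by simp [pairTerm_apply, pairCoeff_one], fun {a b} hab => ?_⟩
  rcases Nat.eq_zero_or_pos a with rfl | ha
  · simp
  rcases Nat.eq_zero_or_pos b with rfl | hb
  · simp
  rw [pairTerm_apply, pairTerm_apply, pairTerm_apply, pairCoeff_mul k m hab ha.ne' hb.ne',
    Nat.cast_mul, mul_pow, mul_div_mul_comm]

/-- The factor of `p`. -/
def localFactor (k m p : ℕ) : ℝ :=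
  if p ^ k ∣ m then 1 - 1 / (p : ℝ) ^ k else 1 - 2 / (p : ℝ) ^ k

theorem pairCoeff_prime {k m p : ℕ} (hp : p.Prime) :
    pairCoeff k m p = (if p ^ k ∣ m then 1 else 0) - 2 := by
  have h : lcmPairs p = {(1, p), (p, 1), (p, p)} := by
    ext ⟨d, e⟩
    simp only [mem_lcmPairs hp.ne_zero, mem_insert, mem_singleton, Prod.mk.injEq]
    constructor
    · intro h
      rcases (Nat.dvd_prime hp).1 (h ▸ Nat.dvd_lcm_left d e) with rfl | rfl <;>
        rcases (Nat.dvd_prime hp).1 (h ▸ Nat.dvd_lcm_right _ e) with rfl | rfl <;>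
        simp_all
    · rintro (⟨rfl, rfl⟩ | ⟨rfl, rfl⟩ | ⟨rfl, rfl⟩) <;> simp
  have h1 : (1, p) ∉ ({(p, 1), (p, p)} : Finset (ℕ × ℕ)) := by simp [hp.ne_one.symm]
  have h2 : (p, 1) ∉ ({(p, p)} : Finset (ℕ × ℕ)) := by simp [hp.ne_one.symm]
  rw [pairCoeff, h, sum_insert h1, sum_insert h2, sum_singleton]
  simp only [pairWeight, Nat.gcd_one_left, Nat.gcd_one_right, Nat.gcd_self, one_pow, one_dvd,
    if_true, ArithmeticFunction.moebius_apply_prime hp, ArithmeticFunction.moebius_apply_one]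
  push_cast
  split_ifs <;> ring

theorem pairCoeff_prime_pow {k m p j : ℕ} (hp : p.Prime) (hj : 2 ≤ j) :
    pairCoeff k m (p ^ j) = 0 := by
  refine sum_eq_zero fun x hx => ?_
  rw [mem_lcmPairs (pow_ne_zero j hp.ne_zero)] at hx
  rw [pairWeight]
  split_ifs
  swap
  · rfl
  by_cases h1 : Squarefree x.1
  swap
  · simp [ArithmeticFunction.moebius_eq_zero_of_not_squarefree h1]
  by_cases h2 : Squarefree x.2
  swap
  · simp [ArithmeticFunction.moebius_eq_zero_of_not_squarefree h2]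
  exfalso
  have h3 := Nat.lcm_dvd ((h1.dvd_pow_iff_dvd (by omega)).1 (hx ▸ Nat.dvd_lcm_left x.1 x.2))
    ((h2.dvd_pow_iff_dvd (by omega)).1 (hx ▸ Nat.dvd_lcm_right x.1 x.2))
  rw [hx] at h3
  have h4 := (Nat.pow_dvd_pow_iff_le_right hp.one_lt).1 (show p ^ j ∣ p ^ 1 by rwa [pow_one])
  omega

/-- `ζ (1 + η)`. -/
def zetaSum (η : ℝ) : ℝ := ∑' q : ℕ, (q : ℝ) ^ (-(1 + η))

theorem summable_zetaSum {η : ℝ} (hη : 0 < η) : Summable fun q : ℕ => (q : ℝ) ^ (-(1 + η)) :=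
  Real.summable_nat_rpow.2 (by linarith)

theorem divisors_sq_div_le {k q z : ℕ} {C η : ℝ} (hC : ∀ n : ℕ, n ≠ 0 →
    (n.divisors.card : ℝ) ≤ C * (n : ℝ) ^ η) (hz : 0 < z) (hzq : z ≤ q)
    (hk : 3 * η + 1 ≤ (k : ℝ)) :
    (#q.divisors : ℝ) ^ 2 / (q : ℝ) ^ k ≤
      C ^ 2 * (z : ℝ) ^ (-((k : ℝ) - 1 - 3 * η)) * (q : ℝ) ^ (-(1 + η)) := by
  have hq : (0 : ℝ) < q := Nat.cast_pos.2 (by omega)
  refine (div_le_div_of_nonneg_right (pow_le_pow_left₀ (Nat.cast_nonneg _) (hC q (by omega)) 2)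
    (by positivity)).trans ?_
  rw [mul_pow, mul_div_assoc, mul_assoc]
  refine mul_le_mul_of_nonneg_left ?_ (sq_nonneg _)
  rw [← Real.rpow_natCast _ 2, ← Real.rpow_natCast _ k, ← Real.rpow_mul hq.le,
    ← Real.rpow_sub hq, show η * ((2 : ℕ) : ℝ) - (k : ℝ) =
      -((k : ℝ) - 1 - 3 * η) + -(1 + η) by push_cast; ring, Real.rpow_add hq]
  exact mul_le_mul_of_nonneg_right (Real.rpow_le_rpow_of_nonpos (Nat.cast_pos.2 hz)
    (Nat.cast_le.2 hzq) (by linarith)) (by positivity)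

theorem summable_norm_pairTerm {k : ℕ} (hk : 2 ≤ k) (m : ℕ) :
    Summable fun q => ‖pairTerm k m q‖ := by
  obtain ⟨C, -, hC⟩ := RepresentationBound.card_divisors_isBigO (1 / 4) (by norm_num)
  refine Summable.of_nonneg_of_le (fun _ => norm_nonneg _) (fun q => ?_)
    ((summable_zetaSum (show (0 : ℝ) < 1 / 4 by norm_num)).mul_left (C ^ 2))
  rcases Nat.eq_zero_or_pos q with rfl | hq
  · simp only [ArithmeticFunction.map_zero, norm_zero]
    positivity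
  rw [Real.norm_eq_abs, pairTerm_apply, abs_div, abs_of_pos (show (0 : ℝ) < (q : ℝ) ^ k by
    positivity)]
  refine (div_le_div_of_nonneg_right (abs_pairCoeff_le k m q subset_rfl) (by positivity)).trans ?_
  have h := divisors_sq_div_le (k := k) hC one_pos hq (by
    have : (2 : ℝ) ≤ k := Nat.ofNat_le_cast.2 hk
    linarith)
  simpa using h

theorem hasProd_localFactor {k : ℕ} (hk : 2 ≤ k) (m : ℕ) :
    HasProd (fun p : Nat.Primes => localFactor k m p) (∑' q, pairTerm k m q) := by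
  refine ((pairTerm_isMultiplicative k m).eulerProduct_hasProd
    (summable_norm_pairTerm hk m)).congr_fun fun p => ?_
  rw [tsum_eq_sum (s := range 2) fun j hj => ?_]
  · rw [sum_range_succ, sum_range_one, pow_zero, pow_one, pairTerm_apply, pairTerm_apply,
      pairCoeff_one, pairCoeff_prime p.2, localFactor]
    split_ifs <;> push_cast <;> ring
  · rw [mem_range, not_lt] at hj
    rw [pairTerm_apply, pairCoeff_prime_pow p.2 hj, zero_div]

/-- The density of the pairs. -/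
def pairDensity (k m : ℕ) : ℝ := ∏' p : Nat.Primes, localFactor k m p

theorem pairDensity_eq_tsum {k : ℕ} (hk : 2 ≤ k) (m : ℕ) :
    pairDensity k m = ∑' q, pairTerm k m q :=
  (hasProd_localFactor hk m).tprod_eq

theorem pairDensity_mem {k : ℕ} (hk : 2 ≤ k) (m : ℕ) :
    1 / 36 ≤ pairDensity k m ∧ pairDensity k m ≤ 1 := by
  have hT : Tendsto (fun s : Finset Nat.Primes => ∏ p ∈ s, localFactor k m p) atTop
      (𝓝 (pairDensity k m)) := by
    have := hasProd_localFactor hk m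
    rw [← pairDensity_eq_tsum hk] at this
    exact this
  have hb : ∀ p : Nat.Primes, 1 - 2 * ((p : ℝ) ^ 2)⁻¹ ≤ localFactor k m p ∧
      localFactor k m p ≤ 1 ∧ 2 * ((p : ℝ) ^ 2)⁻¹ ≤ 1 := by
    intro p
    have h2 : (2 : ℝ) ≤ (p : ℕ) := Nat.ofNat_le_cast.2 p.2.two_le
    have h4 : (4 : ℝ) ≤ ((p : ℕ) : ℝ) ^ 2 := by nlinarith
    have hk2 : ((p : ℕ) : ℝ) ^ 2 ≤ ((p : ℕ) : ℝ) ^ k := pow_le_pow_right₀ (by linarith) hk
    have h5 := inv_anti₀ (by positivity) hk2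
    have h6 := inv_anti₀ (by norm_num) h4
    have h7 : 0 ≤ (((p : ℕ) : ℝ) ^ k)⁻¹ := by positivity
    rw [localFactor, div_eq_mul_inv, div_eq_mul_inv]
    refine ⟨?_, ?_, ?_⟩ <;> (try split_ifs) <;> linarith
  refine ⟨ge_of_tendsto' hT fun s => ?_, le_of_tendsto' hT fun s => ?_⟩
  · refine le_trans ?_ (prod_le_prod (fun p _ => sub_nonneg.2 (hb p).2.2) fun p _ => (hb p).1)
    refine le_trans ?_ (one_sub_sum_le_prod_aux s _ fun p _ => ⟨by positivity, (hb p).2.2⟩)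
    rw [← mul_sum]
    have h := sum_inv_prime_sq_le (s.map ⟨fun p : Nat.Primes => (p : ℕ), Subtype.val_injective⟩)
      fun p hp => by
        obtain ⟨q, -, rfl⟩ := mem_map.1 hp
        exact q.2
    rw [sum_map] at h
    simp only [Function.Embedding.coeFn_mk] at h
    linarith
  · exact prod_le_one (fun p _ => (sub_nonneg.2 (hb p).2.2).trans (hb p).1) fun p _ => (hb p).2.1

/-- The part of the series with `d, e ≤ z`. -/
theorem abs_box_sub_le {k : ℕ} (hk : 2 ≤ k) (m : ℕ) {z : ℕ} (hz : 0 < z) {C η : ℝ} (hη : 0 < η)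
    (hk' : 3 * η + 1 ≤ (k : ℝ))
    (hC : ∀ n : ℕ, n ≠ 0 → (n.divisors.card : ℝ) ≤ C * (n : ℝ) ^ η) :
    |(∑ x ∈ Icc 1 z ×ˢ Icc 1 z, pairWeight k m x / ((x.1.lcm x.2 : ℕ) : ℝ) ^ k) -
      pairDensity k m| ≤ 2 * C ^ 2 * zetaSum η * (z : ℝ) ^ (-((k : ℝ) - 1 - 3 * η)) := by
  obtain ⟨B, hB⟩ : ∃ B, B = C ^ 2 * (z : ℝ) ^ (-((k : ℝ) - 1 - 3 * η)) := ⟨_, rfl⟩
  have hB0 : 0 ≤ B := hB ▸ by positivity
  have hg : ∀ q : ℕ, z ≤ q → ∀ s ⊆ lcmPairs q,
      |(∑ x ∈ s, pairWeight k m x) / (q : ℝ) ^ k| ≤ B * (q : ℝ) ^ (-(1 + η)) := by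
    intro q hq s hs
    rw [abs_div, abs_of_nonneg (show (0 : ℝ) ≤ (q : ℝ) ^ k by positivity), hB]
    exact (div_le_div_of_nonneg_right (abs_pairCoeff_le k m q hs) (by positivity)).trans
      (divisors_sq_div_le hC hz hq hk')
  have hS := summable_zetaSum hη
  have hmaps : ∀ x ∈ Icc 1 z ×ˢ Icc 1 z, x.1.lcm x.2 ∈ Icc 1 (z * z) := by
    intro x hx
    simp only [mem_product, mem_Icc] at hx
    refine mem_Icc.2 ⟨Nat.pos_of_ne_zero (Nat.lcm_ne_zero (by omega) (by omega)), ?_⟩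
    exact (Nat.le_of_dvd (Nat.mul_pos hx.1.1 hx.2.1) (Nat.lcm_dvd_mul _ _)).trans
      (Nat.mul_le_mul hx.1.2 hx.2.2)
  obtain ⟨b, hb⟩ : ∃ b : ℕ → ℝ, b = fun q : ℕ => (∑ x ∈ (Icc 1 z ×ˢ Icc 1 z).filter
      (fun x => x.1.lcm x.2 = q), pairWeight k m x) / (q : ℝ) ^ k := ⟨_, rfl⟩
  have hsum : (∑ x ∈ Icc 1 z ×ˢ Icc 1 z, pairWeight k m x / ((x.1.lcm x.2 : ℕ) : ℝ) ^ k) =
      ∑ q ∈ Icc 1 (z * z), b q := by
    rw [hb, ← sum_fiberwise_of_maps_to hmaps]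
    refine sum_congr rfl fun q _ => ?_
    simp only
    rw [sum_div]
    exact sum_congr rfl fun x hx => by rw [(mem_filter.1 hx).2]
  have hsub : ∀ q, 0 < q → (Icc 1 z ×ˢ Icc 1 z).filter (fun x => x.1.lcm x.2 = q) ⊆ lcmPairs q :=
    fun q hq x hx => (mem_lcmPairs hq.ne').2 (mem_filter.1 hx).2
  have hlow : ∀ q ∈ Icc 1 z, b q = pairTerm k m q := by
    intro q hq
    rw [hb, pairTerm_apply, pairCoeff]
    simp only
    congr 1
    refine sum_congr (Subset.antisymm (hsub q (mem_Icc.1 hq).1) fun x hx => ?_) fun _ _ => rfl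
    rw [mem_lcmPairs (by rw [mem_Icc] at hq; omega)] at hx
    rw [mem_Icc] at hq
    have h1 := Nat.dvd_lcm_left x.1 x.2
    have h2 := Nat.dvd_lcm_right x.1 x.2
    rw [hx] at h1 h2
    refine mem_filter.2 ⟨mem_product.2 ⟨mem_Icc.2 ⟨Nat.pos_of_dvd_of_pos h1 hq.1,
      (Nat.le_of_dvd hq.1 h1).trans hq.2⟩, mem_Icc.2 ⟨Nat.pos_of_dvd_of_pos h2 hq.1,
      (Nat.le_of_dvd hq.1 h2).trans hq.2⟩⟩, hx⟩
  have hzz : z ≤ z * z := Nat.le_mul_of_pos_left z hz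
  have hfs := Summable.of_norm (summable_norm_pairTerm hk m)
  rw [hsum, pairDensity_eq_tsum hk, ← hfs.sum_add_tsum_nat_add (z + 1),
    show Icc 1 (z * z) = Ioc 0 (z * z) from rfl,
    ← sum_Ioc_consecutive _ (Nat.zero_le z) hzz, show Ioc 0 z = Icc 1 z from rfl,
    sum_congr rfl hlow, range_eq_Ico, sum_eq_sum_Ico_succ_bot (Nat.succ_pos z),
    ArithmeticFunction.map_zero, zero_add, show Ico (0 + 1) (z + 1) = Icc 1 z from rfl]
  have h1 : |∑ q ∈ Ioc z (z * z), b q| ≤ B * zetaSum η := by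
    refine (abs_sum_le_sum_abs _ _).trans ((sum_le_sum
      (g := fun q : ℕ => B * (q : ℝ) ^ (-(1 + η))) fun q hq => ?_).trans ?_)
    · rw [mem_Ioc] at hq
      rw [hb]
      exact hg q hq.1.le _ (hsub q (by omega))
    · rw [← mul_sum]
      exact mul_le_mul_of_nonneg_left (hS.sum_le_tsum _ fun q _ => by positivity) hB0
  have h2 : |∑' i, pairTerm k m (i + (z + 1))| ≤ B * zetaSum η := by
    rw [← Real.norm_eq_abs]
    refine (tsum_of_norm_bounded (f := fun i => pairTerm k m (i + (z + 1)))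
      (((summable_nat_add_iff (z + 1)).2 (hS.mul_left B)).hasSum) fun i => ?_).trans ?_
    · rw [Real.norm_eq_abs, pairTerm_apply]
      exact hg _ (by omega) _ subset_rfl
    · rw [zetaSum, ← tsum_mul_left]
      exact tsum_comp_le_tsum_of_inj (hS.mul_left B) (fun q => by positivity)
        (add_left_injective (z + 1))
  have := abs_le.1 h1
  have := abs_le.1 h2
  rw [show 2 * C ^ 2 * zetaSum η * (z : ℝ) ^ (-((k : ℝ) - 1 - 3 * η)) =
    2 * (B * zetaSum η) by rw [hB]; ring, abs_le]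
  constructor <;> linarith

end FA.PowerFreeSums
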