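import Fermat.Agent.PowerFreeSums.Local
import Mathlib.Data.Nat.Squarefree

/-!
# Every `N ≥ 2` is a sum of two squarefree numbers

More than half of the numbers `1, …, n` are squarefree, as `∑ 1 / p ^ 2 < 1/2`.
-/

set_option autoImplicit false

noncomputable section

namespace FA.PowerFreeSums

open Finset

theorem two_mul_card_not_squarefree_lt {n : ℕ} (hn : 0 < n) :
    2 * #((Ioc 0 n).filter fun m : ℕ => ¬ Squarefree m) < n := by
  classical
  obtain ⟨P, hP⟩ : ∃ P, P = (Icc 1 n).filter Nat.Prime := ⟨_, rfl⟩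
  have h1 : #((Ioc 0 n).filter fun m : ℕ => ¬ Squarefree m) ≤ ∑ p ∈ P, n / p ^ 2 := by
    refine (card_le_card (t := P.biUnion fun p => (Ioc 0 n).filter fun m => p ^ 2 ∣ m)
      fun m hm => ?_).trans (card_biUnion_le.trans (sum_le_sum fun p _ =>
        (Nat.Ioc_filter_dvd_card_eq_div n (p ^ 2)).le))
    rw [mem_filter, Nat.squarefree_iff_prime_squarefree] at hm
    push Not at hm
    obtain ⟨hm1, p, hp, hpm⟩ := hm
    rw [mem_Ioc] at hm1
    rw [← sq] at hpm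
    refine mem_biUnion.2 ⟨p, hP ▸ mem_filter.2 ⟨mem_Icc.2 ⟨hp.one_le,
      ((Nat.le_self_pow two_ne_zero p).trans (Nat.le_of_dvd hm1.1 hpm)).trans hm1.2⟩, hp⟩,
      mem_filter.2 ⟨mem_Ioc.2 hm1, hpm⟩⟩
  have h2 : ((∑ p ∈ P, n / p ^ 2 : ℕ) : ℝ) ≤ (n : ℝ) * (35 / 72) := by
    rw [Nat.cast_sum]
    refine le_trans (sum_le_sum (g := fun p : ℕ => (n : ℝ) * ((p : ℝ) ^ 2)⁻¹) fun p _ => ?_) ?_
    · rw [← div_eq_mul_inv, ← Nat.cast_pow]
      exact Nat.cast_div_le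
    · rw [← mul_sum]
      exact mul_le_mul_of_nonneg_left
        (sum_inv_prime_sq_le P fun p hp => (mem_filter.1 (hP ▸ hp)).2) (Nat.cast_nonneg n)
  have h3 := ((Nat.cast_le (α := ℝ)).2 h1).trans h2
  have hn' : (0 : ℝ) < n := Nat.cast_pos.2 hn
  rw [← Nat.cast_lt (α := ℝ)]
  push_cast
  linarith

/-- **Every `N ≥ 2` is a sum of two squarefree numbers.** -/
theorem exists_squarefree_add_eq {N : ℕ} (hN : 2 ≤ N) :
    ∃ a b : ℕ, 0 < a ∧ 0 < b ∧ Squarefree a ∧ Squarefree b ∧ a + b = N := by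
  classical
  obtain ⟨B, hB⟩ : ∃ B, B = (Ioc 0 (N - 1)).filter fun m : ℕ => ¬ Squarefree m := ⟨_, rfl⟩
  have hlt : #(B ∪ B.image fun m => N - m) < #(Ioc 0 (N - 1)) := by
    refine ((card_union_le _ _).trans (Nat.add_le_add_left card_image_le _)).trans_lt ?_
    rw [Nat.card_Ioc, Nat.sub_zero, ← two_mul, hB]
    exact two_mul_card_not_squarefree_lt (by omega)
  obtain ⟨m, hm, hmB⟩ := exists_mem_notMem_of_card_lt_card hlt
  rw [mem_union, not_or] at hmB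
  rw [mem_Ioc] at hm
  refine ⟨m, N - m, hm.1, by omega, ?_, ?_, by omega⟩
  · by_contra h
    exact hmB.1 (hB ▸ mem_filter.2 ⟨mem_Ioc.2 hm, h⟩)
  · by_contra h
    refine hmB.2 (mem_image.2 ⟨N - m, hB ▸ mem_filter.2 ⟨mem_Ioc.2 ⟨by omega, by omega⟩, h⟩,
      by omega⟩)

end FA.PowerFreeSums
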